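import Fermat.Agent.S14.Defs

set_option autoImplicit false

open scoped NumberField nonZeroDivisors
open IsDedekindDomain Fermat.Agent.S14.Defs

namespace Fermat.Agent.S14.Units.Torsion

variable {p : ℕ} [Fact p.Prime] {K : Type} [Field K] [NumberField K]
  [IsCyclotomicExtension {p} ℚ K] {ζ : K}

/-- In `ℚ(ζ_p)`, a power `ζ^m` which is a `p`-th power has `p ∣ m`. -/
theorem dvd_of_zeta_pow_eq_pow (hp : p ≠ 2) (hζ : IsPrimitiveRoot ζ p) (m : ℕ) (δ : K)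
    (h : ζ ^ m = δ ^ p) : p ∣ m := by
  have hpr : p.Prime := Fact.out
  have hodd : Odd p := hpr.odd_of_ne_two hp
  have hδ : IsOfFinOrder δ := by
    rw [isOfFinOrder_iff_pow_eq_one]
    refine ⟨p * p, Nat.mul_pos hpr.pos hpr.pos, ?_⟩
    rw [pow_mul, ← h, ← pow_mul, mul_comm, pow_mul, hζ.pow_eq_one, one_pow]
  obtain ⟨r, hr⟩ := hζ.exists_neg_pow_of_isOfFinOrder hodd hδ
  have h2 : ζ ^ (2 * m) = 1 := by
    have e1 : ζ ^ (2 * m) = (δ ^ p) ^ 2 := by rw [← h, ← pow_mul, mul_comm]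
    have e2 : (δ ^ p) ^ 2 = (ζ ^ p) ^ (r * 2) := by
      rw [hr, ← pow_mul, ← pow_mul, ← pow_mul, show r * (p * 2) = 2 * (r * p) by ring,
        show p * (r * 2) = 2 * (r * p) by ring, pow_mul, neg_sq, ← pow_mul]
    rw [e1, e2, hζ.pow_eq_one, one_pow]
  have h3 : p ∣ 2 * m := (hζ.pow_eq_one_iff_dvd _).mp h2
  rcases (Nat.Prime.dvd_mul hpr).mp h3 with h4 | h4
  · exact absurd ((Nat.prime_dvd_prime_iff_eq hpr Nat.prime_two).mp h4) hp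
  · exact h4

omit [NumberField K] [IsCyclotomicExtension {p} ℚ K] in
/-- An element of `K` whose `p`-th power is a unit of `𝓞 K` is a unit of `𝓞 K`. -/
theorem exists_unit_of_pow_eq (β : K) (u : (𝓞 K)ˣ) (h : β ^ p = ((u : 𝓞 K) : K)) :
    ∃ b : (𝓞 K)ˣ, ((b : 𝓞 K) : K) = β := by
  have hpr : p.Prime := Fact.out
  have h1 : IsIntegral ℤ β := by
    refine IsIntegral.of_pow hpr.pos ?_
    rw [h]; exact (u : 𝓞 K).2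
  have h2 : IsIntegral ℤ β⁻¹ := by
    refine IsIntegral.of_pow hpr.pos ?_
    rw [inv_pow, h]
    have : (((u : 𝓞 K) : K))⁻¹ = (((u⁻¹ : (𝓞 K)ˣ) : 𝓞 K) : K) := by
      rw [eq_comm, ← mul_eq_one_iff_eq_inv₀ (by
        have := u.ne_zero
        exact_mod_cast this)]
      have := u.inv_mul
      exact_mod_cast congrArg (fun x : 𝓞 K => (x : K)) this
    rw [this]; exact ((u⁻¹ : (𝓞 K)ˣ) : 𝓞 K).2
  have hβ0 : β ≠ 0 := by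
    rintro rfl
    rw [zero_pow hpr.ne_zero] at h
    have : (u : 𝓞 K) = 0 := by exact_mod_cast h.symm
    exact u.ne_zero this
  refine ⟨⟨⟨β, h1⟩, ⟨β⁻¹, h2⟩, ?_, ?_⟩, rfl⟩
  · apply NumberField.RingOfIntegers.ext
    show β * β⁻¹ = 1
    exact mul_inv_cancel₀ hβ0
  · apply NumberField.RingOfIntegers.ext
    show β⁻¹ * β = 1
    exact inv_mul_cancel₀ hβ0

/-- Automorphisms of `ℚ(ζ_p)` raising `ζ` to a power prime to `p`. -/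
theorem exists_aut_pow (hζ : IsPrimitiveRoot ζ p) (n : ℕ) (hn : n.Coprime p) :
    ∃ σ : K ≃ₐ[ℚ] K, σ ζ = ζ ^ n := by
  have hpr : p.Prime := Fact.out
  have : NeZero p := ⟨hpr.ne_zero⟩
  have hirr : Irreducible (Polynomial.cyclotomic p ℚ) :=
    Polynomial.cyclotomic.irreducible_rat hpr.pos
  have hζn := hζ.pow_of_coprime n hn
  have hmin : minpoly ℚ (hζ.powerBasis ℚ).gen = minpoly ℚ (hζn.powerBasis ℚ).gen := by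
    simp only [IsPrimitiveRoot.powerBasis_gen]
    rw [← hζ.minpoly_eq_cyclotomic_of_irreducible hirr,
      ← hζn.minpoly_eq_cyclotomic_of_irreducible hirr]
  refine ⟨(hζ.powerBasis ℚ).equivOfMinpoly (hζn.powerBasis ℚ) hmin, ?_⟩
  have h := (hζ.powerBasis ℚ).equivOfMinpoly_gen (hζn.powerBasis ℚ) hmin
  simpa using h

/-- A torsion unit of `ℚ(ζ_p)` is a power of `ζ` times a `p`-th power (of `±1`). -/
theorem torsion_eq (hp : p ≠ 2) (hζ : IsPrimitiveRoot ζ p) (t : (𝓞 K)ˣ) (ht : IsOfFinOrder t) :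
    ∃ (m : ℕ) (s : (𝓞 K)ˣ), ((t : 𝓞 K) : K) = ζ ^ m * ((s : 𝓞 K) : K) ^ p := by
  have hpr : p.Prime := Fact.out
  have hodd : Odd p := hpr.odd_of_ne_two hp
  have htK : IsOfFinOrder ((t : 𝓞 K) : K) := by
    obtain ⟨k, hk, hk1⟩ := isOfFinOrder_iff_pow_eq_one.mp ht
    refine isOfFinOrder_iff_pow_eq_one.mpr ⟨k, hk, ?_⟩
    have := congrArg (fun x : (𝓞 K)ˣ => ((x : 𝓞 K) : K)) hk1
    simpa using this
  obtain ⟨r, hr⟩ := hζ.exists_neg_pow_of_isOfFinOrder hodd htK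
  refine ⟨r, (-1) ^ r, ?_⟩
  rw [hr, neg_pow]
  have : ((((-1 : (𝓞 K)ˣ) ^ r : (𝓞 K)ˣ) : 𝓞 K) : K) ^ p = (-1 : K) ^ r := by
    push_cast
    rw [← pow_mul, mul_comm, pow_mul, hodd.neg_one_pow]
  rw [this, mul_comm]

omit [NumberField K] [IsCyclotomicExtension {p} ℚ K] in
/-- The coercion of a unit of `𝓞 K` to `K` is nonzero. -/
theorem coe_unit_ne_zero (u : (𝓞 K)ˣ) : ((u : 𝓞 K) : K) ≠ 0 := by
  have := u.ne_zero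
  exact_mod_cast this

omit [NumberField K] [IsCyclotomicExtension {p} ℚ K] in
/-- The coercion of the inverse of a unit. -/
theorem coe_unit_inv (u : (𝓞 K)ˣ) : (((u⁻¹ : (𝓞 K)ˣ) : 𝓞 K) : K) = (((u : 𝓞 K) : K))⁻¹ := by
  rw [← mul_eq_one_iff_eq_inv₀ (coe_unit_ne_zero u)]
  have := u.inv_mul
  exact_mod_cast congrArg (fun x : 𝓞 K => (x : K)) this

omit [IsCyclotomicExtension {p} ℚ K] in
/-- The `β` in an eigen-relation for a unit is a unit. -/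
theorem eigen_unit (η : (𝓞 K)ˣ) (σ : K ≃ₐ[ℚ] K) (k : ℕ) (β : K)
    (h : σ ((η : 𝓞 K) : K) = ((η : 𝓞 K) : K) ^ k * β ^ p) :
    ∃ b : (𝓞 K)ˣ, ((b : 𝓞 K) : K) = β := by
  have hpr : p.Prime := Fact.out
  have hη0 := coe_unit_ne_zero η
  have hσ0 : σ ((η : 𝓞 K) : K) ≠ 0 := by simp
  have hβ0 : β ≠ 0 := by
    rintro rfl
    rw [zero_pow hpr.ne_zero, mul_zero] at h
    exact hσ0 h
  have e1 : β ^ p = σ ((η : 𝓞 K) : K) * (((η⁻¹ : (𝓞 K)ˣ) : 𝓞 K) : K) ^ k := by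
    rw [h, coe_unit_inv, inv_pow]
    field_simp
  have e2 : β⁻¹ ^ p = σ (((η⁻¹ : (𝓞 K)ˣ) : 𝓞 K) : K) * ((η : 𝓞 K) : K) ^ k := by
    rw [coe_unit_inv, map_inv₀, h, inv_pow]
    field_simp
  have h1 : IsIntegral ℤ β := by
    refine IsIntegral.of_pow hpr.pos ?_
    rw [e1]
    exact (map_isIntegral_int σ (η : 𝓞 K).2).mul (((η⁻¹ : (𝓞 K)ˣ) : 𝓞 K).2.pow k)
  have h2 : IsIntegral ℤ β⁻¹ := by
    refine IsIntegral.of_pow hpr.pos ?_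
    rw [e2]
    exact (map_isIntegral_int σ ((η⁻¹ : (𝓞 K)ˣ) : 𝓞 K).2).mul ((η : 𝓞 K).2.pow k)
  refine ⟨⟨⟨β, h1⟩, ⟨β⁻¹, h2⟩, ?_, ?_⟩, rfl⟩
  · apply NumberField.RingOfIntegers.ext
    show β * β⁻¹ = 1
    exact mul_inv_cancel₀ hβ0
  · apply NumberField.RingOfIntegers.ext
    show β⁻¹ * β = 1
    exact inv_mul_cancel₀ hβ0

/-- Torsion killing: a relation between two `ω²`-eigen-units modulo `p`-th powers and torsion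
is a relation modulo `p`-th powers. -/
theorem kill_torsion (hp : p ≠ 2) (hζ : IsPrimitiveRoot ζ p) (η₁ η₂ : (𝓞 K)ˣ)
    (h₁ : EigenElt p ζ ((η₁ : 𝓞 K) : K)) (h₂ : EigenElt p ζ ((η₂ : 𝓞 K) : K))
    (i j : ℕ) (ε t : (𝓞 K)ˣ) (ht : IsOfFinOrder t) (h : η₁ ^ i = η₂ ^ j * ε ^ p * t) :
    ∃ ε' : (𝓞 K)ˣ, η₁ ^ i = η₂ ^ j * ε' ^ p := by
  have hpr : p.Prime := Fact.out
  obtain ⟨m, s, hts⟩ := torsion_eq hp hζ t ht
  have h2p : Nat.Coprime 2 p := by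
    rw [Nat.coprime_comm, Nat.Prime.coprime_iff_not_dvd hpr]
    intro h2
    exact hp ((Nat.prime_dvd_prime_iff_eq hpr Nat.prime_two).mp h2)
  obtain ⟨τ, hτ⟩ := exists_aut_pow hζ 2 h2p
  obtain ⟨β₁, hβ₁⟩ := h₁ τ 2 hτ
  obtain ⟨β₂, hβ₂⟩ := h₂ τ 2 hτ
  have hη₁ := coe_unit_ne_zero η₁
  have hη₂ := coe_unit_ne_zero η₂
  have hε := coe_unit_ne_zero ε
  have hs := coe_unit_ne_zero s
  have hζ0 : ζ ≠ 0 := hζ.ne_zero hpr.ne_zero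
  have hβ₁0 : β₁ ≠ 0 := by
    rintro rfl
    rw [zero_pow hpr.ne_zero, mul_zero] at hβ₁
    have : τ ((η₁ : 𝓞 K) : K) ≠ 0 := by simp
    exact this hβ₁
  have hK : ((η₁ : 𝓞 K) : K) ^ i =
      ((η₂ : 𝓞 K) : K) ^ j * ((ε : 𝓞 K) : K) ^ p * (ζ ^ m * ((s : 𝓞 K) : K) ^ p) := by
    rw [← hts]
    exact_mod_cast congrArg (fun x : (𝓞 K)ˣ => ((x : 𝓞 K) : K)) h
  have hτK := congrArg τ hK
  simp only [map_mul, map_pow, hβ₁, hβ₂, hτ] at hτK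
  have key : ((η₂ : 𝓞 K) : K) ^ (4 * j) * ζ ^ (2 * m) *
      (ζ ^ (2 * m) * (((ε : 𝓞 K) : K) ^ 4 * ((s : 𝓞 K) : K) ^ 4 * β₁ ^ i) ^ p) =
      ((η₂ : 𝓞 K) : K) ^ (4 * j) * ζ ^ (2 * m) *
        (β₂ ^ j * τ ((ε : 𝓞 K) : K) * τ ((s : 𝓞 K) : K)) ^ p := by
    calc ((η₂ : 𝓞 K) : K) ^ (4 * j) * ζ ^ (2 * m) *
          (ζ ^ (2 * m) * (((ε : 𝓞 K) : K) ^ 4 * ((s : 𝓞 K) : K) ^ 4 * β₁ ^ i) ^ p)
        = (((η₂ : 𝓞 K) : K) ^ j * ((ε : 𝓞 K) : K) ^ p * (ζ ^ m * ((s : 𝓞 K) : K) ^ p)) ^ 4 *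
            β₁ ^ (p * i) := by ring
      _ = (((η₁ : 𝓞 K) : K) ^ i) ^ 4 * β₁ ^ (p * i) := by rw [hK]
      _ = (((η₁ : 𝓞 K) : K) ^ 2 ^ 2 * β₁ ^ p) ^ i := by ring
      _ = (((η₂ : 𝓞 K) : K) ^ 2 ^ 2 * β₂ ^ p) ^ j * τ ((ε : 𝓞 K) : K) ^ p *
            ((ζ ^ 2) ^ m * τ ((s : 𝓞 K) : K) ^ p) := hτK
      _ = ((η₂ : 𝓞 K) : K) ^ (4 * j) * ζ ^ (2 * m) *
            (β₂ ^ j * τ ((ε : 𝓞 K) : K) * τ ((s : 𝓞 K) : K)) ^ p := by ring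
  have key2 := mul_left_cancel₀ (mul_ne_zero (pow_ne_zero _ hη₂) (pow_ne_zero _ hζ0)) key
  have hne : ((ε : 𝓞 K) : K) ^ 4 * ((s : 𝓞 K) : K) ^ 4 * β₁ ^ i ≠ 0 :=
    mul_ne_zero (mul_ne_zero (pow_ne_zero _ hε) (pow_ne_zero _ hs)) (pow_ne_zero _ hβ₁0)
  have hm2 : p ∣ 2 * m := by
    apply dvd_of_zeta_pow_eq_pow hp hζ (2 * m)
      (β₂ ^ j * τ ((ε : 𝓞 K) : K) * τ ((s : 𝓞 K) : K) /
        (((ε : 𝓞 K) : K) ^ 4 * ((s : 𝓞 K) : K) ^ 4 * β₁ ^ i))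
    rw [div_pow, eq_div_iff (pow_ne_zero _ hne)]
    exact key2
  have hm : p ∣ m := by
    rcases (Nat.Prime.dvd_mul hpr).mp hm2 with h4 | h4
    · exact absurd ((Nat.prime_dvd_prime_iff_eq hpr Nat.prime_two).mp h4) hp
    · exact h4
  have hζm : ζ ^ m = 1 := (hζ.pow_eq_one_iff_dvd _).mpr hm
  have hts' : t = s ^ p := by
    apply Units.ext
    apply NumberField.RingOfIntegers.ext
    rw [hts, hζm, one_mul]
    simp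
  refine ⟨ε * s, ?_⟩
  rw [h, hts', mul_pow, mul_assoc]

/-- Conditional form of `eigenspace_le_one`: given that the `n²`-eigenspace of a generator `σ`
on units modulo `p`-th powers and torsion is at most one-dimensional (hypothesis `H`, in the
group-level shape delivered by `Units.Charpoly`), the frozen statement follows. -/
theorem eigenspace_le_one_of (hp : p ≠ 2) (hζ : IsPrimitiveRoot ζ p)
    (σ : K ≃ₐ[ℚ] K) (n : ℕ) (hσ : σ ζ = ζ ^ n)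
    (f : (𝓞 K)ˣ →* (𝓞 K)ˣ)
    (hf : ∀ u : (𝓞 K)ˣ, (((f u : (𝓞 K)ˣ) : 𝓞 K) : K) = σ ((u : 𝓞 K) : K))
    (H : ∀ u c : (𝓞 K)ˣ,
      (∃ v, ∃ t ∈ NumberField.Units.torsion K, f u = u ^ ((n ^ 2 : ℕ) : ℤ) * v ^ p * t) →
      (∃ w, ∃ t ∈ NumberField.Units.torsion K, f c = c ^ ((n ^ 2 : ℕ) : ℤ) * w ^ p * t) →
      ∃ (i j : ℕ) (ε : (𝓞 K)ˣ), ∃ t ∈ NumberField.Units.torsion K,
        (¬ p ∣ i ∨ ¬ p ∣ j) ∧ u ^ i = c ^ j * ε ^ p * t)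
    (η₁ η₂ : (𝓞 K)ˣ)
    (h₁ : EigenElt p ζ ((η₁ : 𝓞 K) : K)) (h₂ : EigenElt p ζ ((η₂ : 𝓞 K) : K)) :
    ∃ (i j : ℕ) (ε : (𝓞 K)ˣ), (¬ (p ∣ i) ∨ ¬ (p ∣ j)) ∧ η₁ ^ i = η₂ ^ j * ε ^ p := by
  have aux : ∀ η : (𝓞 K)ˣ, EigenElt p ζ ((η : 𝓞 K) : K) →
      ∃ v, ∃ t ∈ NumberField.Units.torsion K, f η = η ^ ((n ^ 2 : ℕ) : ℤ) * v ^ p * t := by
    intro η hη
    obtain ⟨β, hβ⟩ := hη σ n hσ
    obtain ⟨b, hb⟩ := eigen_unit η σ (n ^ 2) β hβ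
    refine ⟨b, 1, one_mem _, ?_⟩
    apply Units.ext
    apply NumberField.RingOfIntegers.ext
    rw [hf, hβ, ← hb, zpow_natCast]
    simp
  obtain ⟨i, j, ε, t, ht, hij, h⟩ := H η₁ η₂ (aux η₁ h₁) (aux η₂ h₂)
  have ht' : IsOfFinOrder t := (CommGroup.mem_torsion (G := (𝓞 K)ˣ) (g := t)).mp ht
  obtain ⟨ε', hε'⟩ := kill_torsion hp hζ η₁ η₂ h₁ h₂ i j ε t ht' h
  exact ⟨i, j, ε', hij, hε'⟩

end Fermat.Agent.S14.Units.Torsion
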