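import Mathlib

/-!
# S14 / package U, row U1b: characteristic polynomial and eigenspaces mod `p`

Pure algebra (no number fields).

* `charpoly_eq_sum_X_pow`: an endomorphism `T` of a free `ℤ`-module of rank `m - 1` having a
  vector `u` whose only relations `∑ k < m, c k • T ^ k u = 0` are the constant ones has
  characteristic polynomial `1 + X + ⋯ + X ^ (m - 1)`.
* `exists_dep_of_charpoly`: if moreover `p ∤ m` then every eigenspace of `T` on `Λ / pΛ`
  has dimension at most one.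
* `exists_dep_group`: the same for a commutative group `E` with a subgroup `N`
  such that `E ⧸ N` is free of finite rank (think: units modulo torsion).
-/

namespace Fermat.Agent.S14.Units.Charpoly

open Polynomial

section abstract

variable {Λ : Type*} [AddCommGroup Λ] [Module.Free ℤ Λ] [Module.Finite ℤ Λ]

/-- If `Λ` is free of rank `m - 1` and `u : Λ` is such that every relation
`∑ k < m, c k • T ^ k u = 0` has all `c k` equal, then the characteristic polynomial of `T`
is `1 + X + ⋯ + X ^ (m - 1)`. -/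
theorem charpoly_eq_sum_X_pow (T : Module.End ℤ Λ) (m : ℕ)
    (hm : Module.finrank ℤ Λ + 1 = m) (u : Λ)
    (hrel : ∀ c : ℕ → ℤ, ∑ k ∈ Finset.range m, c k • (T ^ k) u = 0 → ∀ i < m, c i = c 0) :
    T.charpoly = ∑ k ∈ Finset.range m, (X : ℤ[X]) ^ k := by
  have hdeg : T.charpoly.natDegree = Module.finrank ℤ Λ := LinearMap.charpoly_natDegree T
  have hmon : T.charpoly.Monic := LinearMap.charpoly_monic T
  have hlt : T.charpoly.natDegree < m := by omega
  have hCH : aeval T T.charpoly = 0 := LinearMap.aeval_self_charpoly T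
  rw [aeval_eq_sum_range' hlt] at hCH
  have hu : ∑ k ∈ Finset.range m, T.charpoly.coeff k • (T ^ k) u = 0 := by
    have := congrArg (fun S : Module.End ℤ Λ => S u) hCH
    simpa [LinearMap.sum_apply] using this
  have hc := hrel (fun k => T.charpoly.coeff k) hu
  have hlead : T.charpoly.coeff (m - 1) = 1 := by
    have h1 : m - 1 = T.charpoly.natDegree := by omega
    rw [h1]; exact hmon.coeff_natDegree
  have h0 : T.charpoly.coeff 0 = 1 := by
    rw [← hc (m - 1) (by omega)]; exact hlead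
  ext n
  rw [finsetSum_coeff]
  simp only [coeff_X_pow]
  by_cases hn : n < m
  · rw [hc n hn, h0]
    simp [hn]
  · rw [coeff_eq_zero_of_natDegree_lt (by omega)]
    simp [hn]

/-- If `T` has characteristic polynomial `1 + X + ⋯ + X ^ (m - 1)` and `p ∤ m`, then every
eigenspace of `T` on `Λ / pΛ` is at most one-dimensional: two "eigenvectors mod `p`" for the
same eigenvalue `c` are dependent mod `p`. -/
theorem exists_dep_of_charpoly (T : Module.End ℤ Λ) (m p : ℕ) [Fact p.Prime] (hpm : ¬ p ∣ m)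
    (hT : T.charpoly = ∑ k ∈ Finset.range m, (X : ℤ[X]) ^ k)
    (c : ℤ) (x y : Λ) (hx : ∃ x', T x - c • x = (p : ℤ) • x')
    (hy : ∃ y', T y - c • y = (p : ℤ) • y') :
    ∃ i j : ℕ, (¬ p ∣ i ∨ ¬ p ∣ j) ∧ ∃ z : Λ, (i : ℤ) • x = (j : ℤ) • y + (p : ℤ) • z := by
  classical
  let b : Module.Basis (Module.Free.ChooseBasisIndex ℤ Λ) ℤ Λ := Module.Free.chooseBasis ℤ Λ
  let M : Matrix (Module.Free.ChooseBasisIndex ℤ Λ) (Module.Free.ChooseBasisIndex ℤ Λ) ℤ :=
    LinearMap.toMatrix b b T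
  let f : ℤ →+* ZMod p := Int.castRingHom (ZMod p)
  let φ : Module.End (ZMod p) (Module.Free.ChooseBasisIndex ℤ Λ → ZMod p) :=
    Matrix.toLin' (M.map f)
  -- the reduction map `Λ → 𝔽_p ^ ι`
  let red : Λ → (Module.Free.ChooseBasisIndex ℤ Λ → ZMod p) := fun w k => f (b.equivFun w k)
  have red_add : ∀ w w', red (w + w') = red w + red w' := by
    intro w w'; funext k; simp [red]
  have red_sub : ∀ w w', red (w - w') = red w - red w' := by
    intro w w'; funext k; simp [red]
  have red_smul : ∀ (n : ℤ) w, red (n • w) = (n : ZMod p) • red w := by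
    intro n w; funext k; simp [red, f]
  have red_p : ∀ w, red ((p : ℤ) • w) = 0 := by
    intro w; rw [red_smul]; simp
  have hφ_red : ∀ w, φ (red w) = red (T w) := by
    intro w; funext k
    have h1 : M.mulVec (b.equivFun w) = b.equivFun (T w) := by
      have := LinearMap.toMatrix_mulVec_repr b b T w
      simpa [M, Module.Basis.equivFun_apply] using this
    have h2 := RingHom.map_mulVec f M (b.equivFun w) k
    rw [h1] at h2
    simpa [φ, red, Matrix.toLin'_apply, Function.comp_def] using h2.symm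
  have hlift : ∀ w, red w = 0 → ∃ z, w = (p : ℤ) • z := by
    intro w hw
    have hdvd : ∀ k, (p : ℤ) ∣ b.equivFun w k := by
      intro k
      have := congrFun hw k
      exact (ZMod.intCast_zmod_eq_zero_iff_dvd _ p).mp this
    choose q hq using hdvd
    refine ⟨b.equivFun.symm q, ?_⟩
    apply b.equivFun.injective
    rw [map_smul, LinearEquiv.apply_symm_apply]
    funext k
    simp [hq k]
  -- the characteristic polynomial of `φ`
  have hχ : φ.charpoly = ∑ k ∈ Finset.range m, (X : (ZMod p)[X]) ^ k := by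
    have h1 : φ.charpoly = (M.map f).charpoly := Matrix.charpoly_toLin' _
    rw [h1, Matrix.charpoly_map, LinearMap.charpoly_toMatrix T b, hT]
    simp [Polynomial.map_sum]
  have hsep : (∑ k ∈ Finset.range m, (X : (ZMod p)[X]) ^ k).Separable := by
    have hm0 : ((m : ℕ) : ZMod p) ≠ 0 := by
      rw [Ne, ZMod.natCast_eq_zero_iff]; exact hpm
    have h1 : (X ^ m - C (1 : ZMod p)).Separable :=
      separable_X_pow_sub_C (1 : ZMod p) hm0 one_ne_zero
    have h2 : (X ^ m - C (1 : ZMod p)) =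
        (∑ k ∈ Finset.range m, (X : (ZMod p)[X]) ^ k) * (X - 1) := by
      rw [geom_sum_mul]; simp
    rw [h2] at h1
    exact h1.of_mul_left
  have hdim : Module.finrank (ZMod p) (φ.eigenspace (f c)) ≤ 1 := by
    refine (LinearMap.finrank_eigenspace_le φ (f c)).trans ?_
    rw [hχ]
    exact rootMultiplicity_le_one_of_separable hsep _
  have hmem : ∀ w, (∃ w', T w - c • w = (p : ℤ) • w') → red w ∈ φ.eigenspace (f c) := by
    rintro w ⟨w', hw'⟩
    rw [Module.End.mem_eigenspace_iff, hφ_red]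
    have h1 : T w = c • w + (p : ℤ) • w' := by rw [← hw']; abel
    rw [h1, red_add, red_p, add_zero, red_smul]
    rfl
  obtain ⟨v, hv⟩ := finrank_le_one_iff.mp hdim
  obtain ⟨a, ha⟩ := hv ⟨red x, hmem x hx⟩
  obtain ⟨a', ha'⟩ := hv ⟨red y, hmem y hy⟩
  have ha1 : a • (v : Module.Free.ChooseBasisIndex ℤ Λ → ZMod p) = red x := by
    have := congrArg Subtype.val ha; simpa using this
  have ha1' : a' • (v : Module.Free.ChooseBasisIndex ℤ Λ → ZMod p) = red y := by
    have := congrArg Subtype.val ha'; simpa using this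
  -- a nontrivial dependence over `𝔽_p`
  have key : ∃ α β : ZMod p, (α ≠ 0 ∨ β ≠ 0) ∧ α • red x = β • red y := by
    by_cases h0 : a = 0 ∧ a' = 0
    · refine ⟨1, 0, Or.inl one_ne_zero, ?_⟩
      rw [← ha1, h0.1]; simp
    · refine ⟨a', a, ?_, ?_⟩
      · by_contra hcon
        rw [not_or, not_not, not_not] at hcon
        exact h0 ⟨hcon.2, hcon.1⟩
      · rw [← ha1, ← ha1', smul_smul, smul_smul, mul_comm]
  obtain ⟨α, β, hαβ, hdep⟩ := key
  have hval : ∀ γ : ZMod p, γ ≠ 0 → ¬ p ∣ γ.val := by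
    intro γ hγ hdiv
    apply hγ
    have := (ZMod.natCast_eq_zero_iff γ.val p).mpr hdiv
    rwa [ZMod.natCast_zmod_val] at this
  have hred0 : red ((α.val : ℤ) • x - (β.val : ℤ) • y) = 0 := by
    rw [red_sub, red_smul, red_smul]
    simp only [Int.cast_natCast, ZMod.natCast_zmod_val]
    rw [hdep, sub_self]
  obtain ⟨z, hz⟩ := hlift _ hred0
  refine ⟨α.val, β.val, ?_, z, ?_⟩
  · rcases hαβ with h | h
    · exact Or.inl (hval α h)
    · exact Or.inr (hval β h)
  · rw [← hz]; abel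

/-- Combination of `charpoly_eq_sum_X_pow` and `exists_dep_of_charpoly`. -/
theorem exists_dep (T : Module.End ℤ Λ) (m p : ℕ) [Fact p.Prime] (hpm : ¬ p ∣ m)
    (hm : Module.finrank ℤ Λ + 1 = m) (u : Λ)
    (hrel : ∀ c : ℕ → ℤ, ∑ k ∈ Finset.range m, c k • (T ^ k) u = 0 → ∀ i < m, c i = c 0)
    (c : ℤ) (x y : Λ) (hx : ∃ x', T x - c • x = (p : ℤ) • x')
    (hy : ∃ y', T y - c • y = (p : ℤ) • y') :
    ∃ i j : ℕ, (¬ p ∣ i ∨ ¬ p ∣ j) ∧ ∃ z : Λ, (i : ℤ) • x = (j : ℤ) • y + (p : ℤ) • z :=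
  exists_dep_of_charpoly T m p hpm (charpoly_eq_sum_X_pow T m hm u hrel) c x y hx hy

end abstract

section group

variable {E : Type*} [CommGroup E] (N : Subgroup E)

/-- The projection `E → Additive (E ⧸ N)`. -/
def proj (x : E) : Additive (E ⧸ N) := Additive.ofMul (QuotientGroup.mk x)

theorem proj_mul (x y : E) : proj N (x * y) = proj N x + proj N y := rfl

theorem proj_one : proj N (1 : E) = 0 := rfl

theorem proj_zpow (x : E) (n : ℤ) : proj N (x ^ n) = n • proj N x := rfl

theorem proj_pow (x : E) (n : ℕ) : proj N (x ^ n) = (n : ℤ) • proj N x := by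
  rw [← zpow_natCast, proj_zpow]

theorem proj_eq_zero_iff (x : E) : proj N x = 0 ↔ x ∈ N := by
  unfold proj
  rw [← QuotientGroup.eq_one_iff (N := N) x]
  rfl

theorem proj_surjective : Function.Surjective (proj N) := by
  intro z
  obtain ⟨x, hx⟩ := QuotientGroup.mk_surjective (s := N) (Additive.toMul z)
  exact ⟨x, by unfold proj; rw [hx]; rfl⟩

theorem proj_prod {ι : Type*} (s : Finset ι) (g : ι → E) :
    proj N (∏ i ∈ s, g i) = ∑ i ∈ s, proj N (g i) := by
  classical
  induction s using Finset.induction_on with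
  | empty => simp [proj_one]
  | insert a s ha ih => rw [Finset.prod_insert ha, Finset.sum_insert ha, proj_mul, ih]

/-- The endomorphism of `Additive (E ⧸ N)` induced by an endomorphism `f` of `E`
preserving `N`. -/
def quotEnd (f : E →* E) (hf : ∀ x ∈ N, f x ∈ N) : Module.End ℤ (Additive (E ⧸ N)) :=
  (MonoidHom.toAdditive (QuotientGroup.map N N f (fun x hx => hf x hx))).toIntLinearMap

theorem quotEnd_proj (f : E →* E) (hf : ∀ x ∈ N, f x ∈ N) (x : E) :
    quotEnd N f hf (proj N x) = proj N (f x) := rfl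

theorem quotEnd_pow_proj (f : E →* E) (hf : ∀ x ∈ N, f x ∈ N) (i : ℕ) (x : E) :
    (quotEnd N f hf ^ i) (proj N x) = proj N (f^[i] x) := by
  induction i generalizing x with
  | zero => simp
  | succ i ih =>
    rw [pow_succ, Module.End.mul_apply, quotEnd_proj, ih, Function.iterate_succ_apply]

/-- **Group-level statement.**  Let `E` be a commutative group and `N` a subgroup such that
`E ⧸ N` is free of rank `m - 1` (e.g. units modulo torsion), `f` an endomorphism of `E`
preserving `N` and `u0 : E` a "Minkowski element": a relation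
`∏ i < m, (f^[i] u0) ^ (c i) ∈ N` forces all `c i` to be equal.  If `p ∤ m`, then
the `k`-eigenspace of `f` on `E / (N · E ^ p)` is at most one-dimensional. -/
theorem exists_dep_group (f : E →* E) (hf : ∀ x ∈ N, f x ∈ N)
    [Module.Free ℤ (Additive (E ⧸ N))] [Module.Finite ℤ (Additive (E ⧸ N))]
    (m p : ℕ) [Fact p.Prime] (hpm : ¬ p ∣ m)
    (hm : Module.finrank ℤ (Additive (E ⧸ N)) + 1 = m) (u0 : E)
    (hrel : ∀ c : ℕ → ℤ, (∏ i ∈ Finset.range m, (f^[i] u0) ^ (c i)) ∈ N → ∀ i < m, c i = c 0)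
    (k : ℤ) (u c : E) (hu : ∃ v, ∃ t ∈ N, f u = u ^ k * v ^ p * t)
    (hc : ∃ w, ∃ t ∈ N, f c = c ^ k * w ^ p * t) :
    ∃ (i j : ℕ) (ε : E), ∃ t ∈ N, (¬ p ∣ i ∨ ¬ p ∣ j) ∧ u ^ i = c ^ j * ε ^ p * t := by
  have hrel' : ∀ a : ℕ → ℤ,
      ∑ i ∈ Finset.range m, a i • (quotEnd N f hf ^ i) (proj N u0) = 0 → ∀ i < m, a i = a 0 := by
    intro a ha
    apply hrel a
    rw [← proj_eq_zero_iff, proj_prod, ← ha]
    refine Finset.sum_congr rfl (fun i _ => ?_)
    rw [proj_zpow, quotEnd_pow_proj]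
  have heig : ∀ x : E, (∃ v, ∃ t ∈ N, f x = x ^ k * v ^ p * t) →
      ∃ x', quotEnd N f hf (proj N x) - k • proj N x = (p : ℤ) • x' := by
    rintro x ⟨v, t, ht, hx⟩
    refine ⟨proj N v, ?_⟩
    rw [quotEnd_proj, hx, proj_mul, proj_mul, proj_zpow, proj_pow, (proj_eq_zero_iff N t).mpr ht]
    abel
  obtain ⟨i, j, hij, z, hz⟩ := exists_dep (quotEnd N f hf) m p hpm hm (proj N u0) hrel' k
    (proj N u) (proj N c) (heig u hu) (heig c hc)
  obtain ⟨ε, rfl⟩ := proj_surjective N z
  refine ⟨i, j, ε, u ^ i * (c ^ j * ε ^ p)⁻¹, ?_, hij, ?_⟩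
  · rw [← proj_eq_zero_iff, proj_mul, ← zpow_neg_one, proj_zpow, proj_mul, proj_pow, proj_pow,
      proj_pow, hz]
    abel
  · rw [mul_comm (u ^ i) _, mul_inv_cancel_left]

/-- Variant of `exists_dep_group` with a natural-number exponent `k`. -/
theorem exists_dep_group_nat (f : E →* E) (hf : ∀ x ∈ N, f x ∈ N)
    [Module.Free ℤ (Additive (E ⧸ N))] [Module.Finite ℤ (Additive (E ⧸ N))]
    (m p : ℕ) [Fact p.Prime] (hpm : ¬ p ∣ m)
    (hm : Module.finrank ℤ (Additive (E ⧸ N)) + 1 = m) (u0 : E)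
    (hrel : ∀ c : ℕ → ℤ, (∏ i ∈ Finset.range m, (f^[i] u0) ^ (c i)) ∈ N → ∀ i < m, c i = c 0)
    (k : ℕ) (u c : E) (hu : ∃ v, ∃ t ∈ N, f u = u ^ k * v ^ p * t)
    (hc : ∃ w, ∃ t ∈ N, f c = c ^ k * w ^ p * t) :
    ∃ (i j : ℕ) (ε : E), ∃ t ∈ N, (¬ p ∣ i ∨ ¬ p ∣ j) ∧ u ^ i = c ^ j * ε ^ p * t := by
  refine exists_dep_group N f hf m p hpm hm u0 hrel (k : ℤ) u c ?_ ?_
  · obtain ⟨v, t, ht, h⟩ := hu
    exact ⟨v, t, ht, by rw [zpow_natCast]; exact h⟩
  · obtain ⟨w, t, ht, h⟩ := hc
    exact ⟨w, t, ht, by rw [zpow_natCast]; exact h⟩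

end group

section units

open NumberField

/-- **Number-field instantiation.**  `K` a number field whose unit rank is `m - 1`, `f` an
endomorphism of the unit group (e.g. induced by a field automorphism), `u0` a unit such that
a relation `∏ i < m, (f^[i] u0) ^ (c i) ∈ torsion` forces all `c i` equal.  If `p ∤ m`, any two
units `u`, `c` with `f u = u ^ k * v ^ p * (torsion)` and `f c = c ^ k * w ^ p * (torsion)`
are dependent modulo `p`-th powers and torsion. -/
theorem exists_dep_units (K : Type*) [Field K] [NumberField K] (f : (𝓞 K)ˣ →* (𝓞 K)ˣ)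
    (m p : ℕ) [Fact p.Prime] (hpm : ¬ p ∣ m) (hm : NumberField.Units.rank K + 1 = m)
    (u0 : (𝓞 K)ˣ)
    (hrel : ∀ c : ℕ → ℤ,
      (∏ i ∈ Finset.range m, (f^[i] u0) ^ (c i)) ∈ NumberField.Units.torsion K →
        ∀ i < m, c i = c 0)
    (k : ℕ) (u c : (𝓞 K)ˣ)
    (hu : ∃ v, ∃ t ∈ NumberField.Units.torsion K, f u = u ^ k * v ^ p * t)
    (hc : ∃ w, ∃ t ∈ NumberField.Units.torsion K, f c = c ^ k * w ^ p * t) :
    ∃ (i j : ℕ) (ε : (𝓞 K)ˣ), ∃ t ∈ NumberField.Units.torsion K,
      (¬ p ∣ i ∨ ¬ p ∣ j) ∧ u ^ i = c ^ j * ε ^ p * t :=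
  exists_dep_group_nat (NumberField.Units.torsion K) f
    (fun x hx => by
      rw [NumberField.Units.torsion, CommGroup.mem_torsion] at hx ⊢
      exact f.isOfFinOrder hx)
    m p hpm (by rw [NumberField.Units.finrank_modTorsion]; exact hm) u0 hrel k u c hu hc

end units

end Fermat.Agent.S14.Units.Charpoly
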