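import Fermat.Agent.S14.Defs
import Fermat.Agent.S14.UnitEigen
import Fermat.Agent.S14.Units.Torsion

set_option autoImplicit false

open scoped NumberField nonZeroDivisors
open IsDedekindDomain Fermat.Agent.S14.Defs

namespace Fermat.Agent.S14.Units.Eigen

variable {p : ℕ} [Fact p.Prime] {K : Type} [Field K] [NumberField K]
  [IsCyclotomicExtension {p} ℚ K] {ζ : K}

/-- The Galois group of `ℚ(ζ_p)/ℚ` has an element of order `p - 1`. -/
theorem exists_orderOf_eq (p : ℕ) [Fact p.Prime] (K : Type) [Field K] [NumberField K]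
    [IsCyclotomicExtension {p} ℚ K] : ∃ σ : K ≃ₐ[ℚ] K, orderOf σ = p - 1 := by
  have hpr : p.Prime := Fact.out
  have : NeZero p := ⟨hpr.ne_zero⟩
  have hirr : Irreducible (Polynomial.cyclotomic p ℚ) :=
    Polynomial.cyclotomic.irreducible_rat hpr.pos
  obtain ⟨g, hg⟩ := IsCyclic.exists_generator (α := (ZMod p)ˣ)
  refine ⟨(IsCyclotomicExtension.autEquivPow K hirr).symm g, ?_⟩
  rw [MulEquiv.orderOf_eq, orderOf_eq_card_of_forall_mem_zpowers hg, Nat.card_eq_fintype_card,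
    ZMod.card_units_eq_totient, Nat.totient_prime hpr]

/-- The `ω²`-eigenspace of `E/E^p` is at most one-dimensional: two eigen-units are
multiplicatively dependent modulo `p`-th powers. (Frozen statement of `Units.eigenspace_le_one`.) -/
theorem eigenspace_le_one (hp5 : 5 ≤ p) (hζ : IsPrimitiveRoot ζ p) (η₁ η₂ : (𝓞 K)ˣ)
    (h₁ : EigenElt p ζ ((η₁ : 𝓞 K) : K)) (h₂ : EigenElt p ζ ((η₂ : 𝓞 K) : K)) :
    ∃ (i j : ℕ) (ε : (𝓞 K)ˣ), (¬ (p ∣ i) ∨ ¬ (p ∣ j)) ∧ η₁ ^ i = η₂ ^ j * ε ^ p := by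
  have hpr : p.Prime := Fact.out
  have hp2 : p ≠ 2 := by omega
  have : NeZero p := ⟨hpr.ne_zero⟩
  have hp1 : ¬ p ∣ 1 := fun h => hpr.one_lt.ne' (Nat.dvd_one.mp h)
  obtain ⟨σ, hσ⟩ := exists_orderOf_eq p K
  have hn : σ ζ = ζ ^ (hζ.autToPow ℚ σ : ZMod p).val := (hζ.autToPow_spec ℚ σ).symm
  refine Torsion.eigenspace_le_one_of hp2 hζ σ _ hn (UnitEigen.unitsMap σ)
    (fun u => UnitEigen.coe_unitsMap σ u) ?_ η₁ η₂ h₁ h₂
  intro u c hu hc
  by_cases hc' : ∃ v t : (𝓞 K)ˣ, t ∈ NumberField.Units.torsion K ∧ c = v ^ p * t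
  · obtain ⟨v, t, ht, hcv⟩ := hc'
    refine ⟨0, 1, v⁻¹, t⁻¹, inv_mem ht, Or.inr hp1, ?_⟩
    rw [hcv, pow_zero, pow_one, inv_pow, mul_comm (v ^ p) t, mul_inv_cancel_right,
      mul_inv_cancel]
  · obtain ⟨j, v, t, ht, huv⟩ :=
      UnitEigen.exists_eq_zpow_mul_pow_mul_torsion p hp2 σ hσ _ u c hu hc hc'
    refine ⟨1, (j % (p : ℤ)).toNat, c ^ (j / (p : ℤ)) * v, t, ht, Or.inl hp1, ?_⟩
    have hp0 : (p : ℤ) ≠ 0 := by exact_mod_cast hpr.ne_zero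
    have h1 : ((j % (p : ℤ)).toNat : ℤ) = j % (p : ℤ) := Int.toNat_of_nonneg (Int.emod_nonneg j hp0)
    have h2 : c ^ j = c ^ ((j % (p : ℤ)).toNat) * (c ^ (j / (p : ℤ))) ^ p := by
      rw [← zpow_natCast c ((j % (p : ℤ)).toNat), h1, ← zpow_natCast (c ^ (j / (p : ℤ))) p,
        ← zpow_mul, ← zpow_add, mul_comm, Int.emod_add_mul_ediv]
    rw [pow_one, huv, h2, mul_pow]
    simp only [mul_assoc]

end Fermat.Agent.S14.Units.Eigen
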