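import Fermat.Agent.S14.Defs

set_option autoImplicit false

open scoped NumberField
open NumberField NumberField.Units Fermat.Agent.S14.Defs

namespace Fermat.Agent.S14.Units.LogAction

section General

variable {K : Type} [Field K] [NumberField K]

/-- The action of a field automorphism on the units of the ring of integers. -/
noncomputable def unitsMap (σ : K ≃ₐ[ℚ] K) : (𝓞 K)ˣ ≃* (𝓞 K)ˣ :=
  Units.mapEquiv (sigmaO σ).toMulEquiv

theorem coe_unitsMap (σ : K ≃ₐ[ℚ] K) (u : (𝓞 K)ˣ) :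
    ((unitsMap σ u : 𝓞 K) : K) = σ ((u : 𝓞 K) : K) := by
  simp [unitsMap, sigmaO, NumberField.RingOfIntegers.mapRingEquiv_apply]

theorem unitsMap_one (u : (𝓞 K)ˣ) : unitsMap (1 : K ≃ₐ[ℚ] K) u = u := by
  apply Units.ext
  apply NumberField.RingOfIntegers.ext
  rw [coe_unitsMap]
  rfl

theorem unitsMap_mul (σ τ : K ≃ₐ[ℚ] K) (u : (𝓞 K)ˣ) :
    unitsMap (σ * τ) u = unitsMap σ (unitsMap τ u) := by
  apply Units.ext
  apply NumberField.RingOfIntegers.ext
  rw [coe_unitsMap, coe_unitsMap, coe_unitsMap]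
  rfl

theorem unitsMap_pow (σ : K ≃ₐ[ℚ] K) (k : ℕ) (u : (𝓞 K)ˣ) :
    unitsMap (σ ^ k) u = (unitsMap σ)^[k] u := by
  induction k with
  | zero => simp [unitsMap_one]
  | succ k ih =>
    rw [pow_succ', unitsMap_mul, ih, Function.iterate_succ_apply']

/-- Absolute values of a conjugate unit. -/
theorem place_unitsMap (w : InfinitePlace K) (σ : K ≃ₐ[ℚ] K) (u : (𝓞 K)ˣ) :
    w ((unitsMap σ u : 𝓞 K) : K) = (σ⁻¹ • w) ((u : 𝓞 K) : K) := by
  rw [coe_unitsMap, InfinitePlace.smul_apply]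
  rfl

theorem unitsMap_mem_torsion_iff (σ : K ≃ₐ[ℚ] K) (u : (𝓞 K)ˣ) :
    unitsMap σ u ∈ torsion K ↔ u ∈ torsion K := by
  rw [torsion, CommGroup.mem_torsion, CommGroup.mem_torsion]
  exact (unitsMap σ).injective.isOfFinOrder_iff (f := (unitsMap σ).toMonoidHom)

end General

section Cyclotomic

variable {K : Type} [Field K] [NumberField K] {p : ℕ} [hp : Fact p.Prime]
  [IsCyclotomicExtension {p} ℚ K]

include hp in
theorem card_infinitePlace (h3 : 3 ≤ p) : Fintype.card (InfinitePlace K) = (p - 1) / 2 := by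
  have hpr : p.Prime := Fact.out
  have : NeZero p := ⟨hpr.ne_zero⟩
  rw [InfinitePlace.card_eq_nrRealPlaces_add_nrComplexPlaces,
    IsCyclotomicExtension.Rat.nrRealPlaces_eq_zero (n := p) K (by omega),
    IsCyclotomicExtension.Rat.nrComplexPlaces_eq_totient_div_two p K, Nat.totient_prime hpr,
    zero_add]

include hp in
theorem rank_eq (h3 : 3 ≤ p) : NumberField.Units.rank K = (p - 1) / 2 - 1 := by
  rw [NumberField.Units.rank, card_infinitePlace (p := p) h3]

omit hp in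
theorem isGalois_cyclo (K : Type) [Field K] [NumberField K] (p : ℕ)
    [IsCyclotomicExtension {p} ℚ K] : IsGalois ℚ K :=
  IsCyclotomicExtension.isGalois {p} ℚ K

include hp in
theorem isTotallyComplex_cyclo (h3 : 3 ≤ p) : IsTotallyComplex K := by
  have hpr : p.Prime := Fact.out
  have : NeZero p := ⟨hpr.ne_zero⟩
  exact IsCyclotomicExtension.Rat.isTotallyComplex (n := p) K (by omega)

include hp in
theorem card_gal : Nat.card (K ≃ₐ[ℚ] K) = p - 1 := by
  have hpr : p.Prime := Fact.out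
  have : NeZero p := ⟨hpr.ne_zero⟩
  have := isGalois_cyclo K p
  rw [IsGalois.card_aut_eq_finrank,
    IsCyclotomicExtension.finrank (n := p) K (Polynomial.cyclotomic.irreducible_rat hpr.pos),
    Nat.totient_prime hpr]

include hp in
/-- The Galois group of `ℚ(ζ_p)/ℚ` is cyclic. -/
theorem exists_generator : ∃ σ : K ≃ₐ[ℚ] K, ∀ τ : K ≃ₐ[ℚ] K, τ ∈ Subgroup.zpowers σ := by
  have hpr : p.Prime := Fact.out
  have : NeZero p := ⟨hpr.ne_zero⟩
  have e := IsCyclotomicExtension.autEquivPow (n := p) K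
    (Polynomial.cyclotomic.irreducible_rat hpr.pos)
  have : IsCyclic (K ≃ₐ[ℚ] K) := e.isCyclic.mpr inferInstance
  exact IsCyclic.exists_generator

include hp in
theorem orderOf_generator (σ : K ≃ₐ[ℚ] K) (hgen : ∀ τ : K ≃ₐ[ℚ] K, τ ∈ Subgroup.zpowers σ) :
    orderOf σ = p - 1 := by
  rw [orderOf_eq_card_of_forall_mem_zpowers hgen, card_gal (p := p)]

omit hp in
/-- The Galois group acts transitively on the infinite places. -/
theorem exists_smul_eq {K : Type} [Field K] [NumberField K] (p : ℕ)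
    [IsCyclotomicExtension {p} ℚ K] (w w' : InfinitePlace K) :
    ∃ τ : K ≃ₐ[ℚ] K, τ • w = w' := by
  have := isGalois_cyclo K p
  exact InfinitePlace.exists_smul_eq_of_comap_eq (Subsingleton.elim _ _)

include hp in
theorem card_stabilizer_eq_two (h3 : 3 ≤ p) (w : InfinitePlace K) :
    Nat.card (MulAction.stabilizer (K ≃ₐ[ℚ] K) w) = 2 := by
  have := isGalois_cyclo K p
  have := isTotallyComplex_cyclo (K := K) (p := p) h3
  rw [← InfinitePlace.not_isUnramified_iff_card_stabilizer_eq_two, InfinitePlace.not_isUnramified_iff]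
  refine ⟨IsTotallyComplex.isComplex w, ?_⟩
  exact ⟨Rat.castHom ℂ, Subsingleton.elim _ _, Subsingleton.elim _ _⟩

include hp in
theorem two_mul_half (h3 : 3 ≤ p) : 2 * ((p - 1) / 2) = p - 1 := by
  have hpr : p.Prime := Fact.out
  rcases hpr.eq_two_or_odd' with h | h
  · omega
  · obtain ⟨k, hk⟩ := h
    omega

include hp in
/-- `σ^((p-1)/2)` (complex conjugation) fixes every infinite place. -/
theorem pow_half_smul (h3 : 3 ≤ p) (σ : K ≃ₐ[ℚ] K)
    (hgen : ∀ τ : K ≃ₐ[ℚ] K, τ ∈ Subgroup.zpowers σ) (w : InfinitePlace K) :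
    σ ^ ((p - 1) / 2) • w = w := by
  have hcard := card_stabilizer_eq_two (p := p) h3 w
  have hord := orderOf_generator (p := p) σ hgen
  have h2m := two_mul_half (p := p) h3
  set m := (p - 1) / 2 with hm
  have hne : MulAction.stabilizer (K ≃ₐ[ℚ] K) w ≠ ⊥ := by
    intro h
    rw [h] at hcard
    simp at hcard
  obtain ⟨τ, hτ1⟩ := (Subgroup.ne_bot_iff_exists_ne_one).mp hne
  have hτ2 : (τ : K ≃ₐ[ℚ] K) ^ 2 = 1 := by
    have h := pow_card_eq_one' (G := MulAction.stabilizer (K ≃ₐ[ℚ] K) w) (x := τ)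
    rw [hcard] at h
    exact_mod_cast congrArg Subtype.val h
  have hτ1' : (τ : K ≃ₐ[ℚ] K) ≠ 1 := fun h => hτ1 (Subtype.ext h)
  obtain ⟨z, hz⟩ := Subgroup.mem_zpowers_iff.mp (hgen (τ : K ≃ₐ[ℚ] K))
  have h1 : σ ^ (2 * z) = 1 := by
    rw [mul_comm, zpow_mul, hz]
    exact_mod_cast hτ2
  have h2 : ((p - 1 : ℕ) : ℤ) ∣ 2 * z := by
    rw [← hord]
    exact orderOf_dvd_iff_zpow_eq_one.mpr h1
  have h3' : (m : ℤ) ∣ z := by
    rw [← h2m] at h2
    push_cast at h2
    have hm0 : (m : ℤ) ≠ 0 := by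
      have : 0 < m := by omega
      exact_mod_cast this.ne'
    exact (mul_dvd_mul_iff_left (by norm_num : (2 : ℤ) ≠ 0)).mp h2
  obtain ⟨t, rfl⟩ := h3'
  have hσ2m : σ ^ (2 * (m : ℤ)) = 1 := by
    have : σ ^ (p - 1) = 1 := by rw [← hord]; exact pow_orderOf_eq_one σ
    rw [← h2m] at this
    exact_mod_cast this
  have key : σ ^ (m : ℤ) = (τ : K ≃ₐ[ℚ] K) := by
    rcases Int.even_or_odd' t with ⟨s, hs | hs⟩
    · exfalso
      apply hτ1'
      rw [← hz, hs, show (m : ℤ) * (2 * s) = (2 * (m : ℤ)) * s by ring, zpow_mul, hσ2m, one_zpow]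
    · rw [← hz, hs, show (m : ℤ) * (2 * s + 1) = (2 * (m : ℤ)) * s + m by ring, zpow_add, zpow_mul,
        hσ2m, one_zpow, one_mul]
  have hmem : σ ^ m ∈ MulAction.stabilizer (K ≃ₐ[ℚ] K) w := by
    have : σ ^ m = (τ : K ≃ₐ[ℚ] K) := by exact_mod_cast key
    rw [this]
    exact τ.2
  exact MulAction.mem_stabilizer_iff.mp hmem

include hp in
theorem zpow_half_mul_smul (h3 : 3 ≤ p) (σ : K ≃ₐ[ℚ] K)
    (hgen : ∀ τ : K ≃ₐ[ℚ] K, τ ∈ Subgroup.zpowers σ) (w : InfinitePlace K) (q : ℤ) :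
    (σ ^ ((p - 1) / 2)) ^ q • w = w := by
  have hmem : σ ^ ((p - 1) / 2) ∈ MulAction.stabilizer (K ≃ₐ[ℚ] K) w :=
    MulAction.mem_stabilizer_iff.mpr (pow_half_smul (p := p) h3 σ hgen w)
  exact MulAction.mem_stabilizer_iff.mp (Subgroup.zpow_mem _ hmem q)

include hp in
/-- A generator of the Galois group permutes the infinite places cyclically: every place is
`σ^k • w` with `k < (p-1)/2`. -/
theorem exists_pow_smul_eq (h3 : 3 ≤ p) (σ : K ≃ₐ[ℚ] K)
    (hgen : ∀ τ : K ≃ₐ[ℚ] K, τ ∈ Subgroup.zpowers σ) (w w' : InfinitePlace K) :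
    ∃ k : ℕ, k < (p - 1) / 2 ∧ σ ^ k • w = w' := by
  obtain ⟨τ, hτ⟩ := exists_smul_eq p w w'
  obtain ⟨z, rfl⟩ := Subgroup.mem_zpowers_iff.mp (hgen τ)
  have h2m := two_mul_half (p := p) h3
  set m := (p - 1) / 2 with hm
  have hm0 : (0 : ℤ) < (m : ℤ) := by
    have : 0 < m := by omega
    exact_mod_cast this
  have hr0 : 0 ≤ z % (m : ℤ) := Int.emod_nonneg _ hm0.ne'
  have hrm : z % (m : ℤ) < m := Int.emod_lt_of_pos _ hm0
  refine ⟨(z % (m : ℤ)).toNat, by omega, ?_⟩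
  have hz : z = (z % (m : ℤ)).toNat + (m : ℤ) * (z / (m : ℤ)) := by
    rw [Int.toNat_of_nonneg hr0]
    exact (Int.emod_add_mul_ediv z m).symm
  rw [← hτ]
  conv_rhs => rw [hz, zpow_add, zpow_mul, mul_smul, zpow_natCast, zpow_natCast,
    zpow_half_mul_smul (p := p) h3 σ hgen w]

include hp in
/-- The orbit map `i ↦ σ^i • w`, `i < (p-1)/2`, is a bijection onto the infinite places. -/
theorem orbit_bijective (h3 : 3 ≤ p) (σ : K ≃ₐ[ℚ] K)
    (hgen : ∀ τ : K ≃ₐ[ℚ] K, τ ∈ Subgroup.zpowers σ) (w : InfinitePlace K) :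
    Function.Bijective (fun i : Fin ((p - 1) / 2) => σ ^ (i : ℕ) • w) := by
  rw [Fintype.bijective_iff_surjective_and_card]
  refine ⟨fun w' => ?_, ?_⟩
  · obtain ⟨k, hk, hkw⟩ := exists_pow_smul_eq (p := p) h3 σ hgen w w'
    exact ⟨⟨k, hk⟩, hkw⟩
  · rw [Fintype.card_fin, card_infinitePlace (p := p) h3]

include hp in
theorem pow_smul_eq_iff (h3 : 3 ≤ p) (σ : K ≃ₐ[ℚ] K)
    (hgen : ∀ τ : K ≃ₐ[ℚ] K, τ ∈ Subgroup.zpowers σ) (w : InfinitePlace K) (k : ℕ) :
    σ ^ k • w = w ↔ (p - 1) / 2 ∣ k := by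
  have h2m := two_mul_half (p := p) h3
  set m := (p - 1) / 2 with hm
  have hm0 : 0 < m := by omega
  have hdecomp : σ ^ k • w = σ ^ (k % m) • w := by
    conv_lhs => rw [← Nat.mod_add_div k m, pow_add, pow_mul, mul_smul]
    have := zpow_half_mul_smul (p := p) h3 σ hgen w ((k / m : ℕ) : ℤ)
    rw [zpow_natCast] at this
    rw [this]
  constructor
  · intro h
    rw [hdecomp] at h
    have hinj := (orbit_bijective (p := p) h3 σ hgen w).1
    have := @hinj ⟨k % m, Nat.mod_lt _ hm0⟩ ⟨0, hm0⟩ (by simpa using h)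
    have h0 : k % m = 0 := by simpa using congrArg Fin.val this
    exact Nat.dvd_of_mod_eq_zero h0
  · intro h
    rw [hdecomp, Nat.mod_eq_zero_of_dvd h, pow_zero, one_smul]

include hp in
/-- Sums over the infinite places as sums over the orbit of one place. -/
theorem sum_places_eq (h3 : 3 ≤ p) (σ : K ≃ₐ[ℚ] K)
    (hgen : ∀ τ : K ≃ₐ[ℚ] K, τ ∈ Subgroup.zpowers σ) (w : InfinitePlace K)
    (f : InfinitePlace K → ℝ) :
    ∑ w' : InfinitePlace K, f w' = ∑ i ∈ Finset.range ((p - 1) / 2), f (σ ^ i • w) := by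
  rw [← Fin.sum_univ_eq_sum_range (fun i => f (σ ^ i • w))]
  exact (Fintype.sum_bijective _ (orbit_bijective (p := p) h3 σ hgen w) _ _ (fun _ => rfl)).symm

include hp in
theorem sum_log_place (h3 : 3 ≤ p) (u : (𝓞 K)ˣ) :
    ∑ w : InfinitePlace K, Real.log (w ((u : 𝓞 K) : K)) = 0 := by
  have := isTotallyComplex_cyclo (K := K) (p := p) h3
  have h := NumberField.Units.sum_mult_mul_log u
  simp only [IsTotallyComplex.mult_eq] at h
  rw [← Finset.mul_sum] at h
  simpa using h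

omit hp [IsCyclotomicExtension {p} ℚ K] in
theorem inv_generator (σ : K ≃ₐ[ℚ] K) (hgen : ∀ τ : K ≃ₐ[ℚ] K, τ ∈ Subgroup.zpowers σ) :
    ∀ τ : K ≃ₐ[ℚ] K, τ ∈ Subgroup.zpowers σ⁻¹ := by
  intro τ
  rw [Subgroup.zpowers_inv]
  exact hgen τ

/-- Logarithm of the absolute value of a product of conjugates. -/
theorem log_place_prod_zpow (w : InfinitePlace K) (σ : K ≃ₐ[ℚ] K) (u : (𝓞 K)ˣ) (c : ℕ → ℤ)
    (s : Finset ℕ) :
    Real.log (w (((∏ i ∈ s, (unitsMap (σ ^ i) u) ^ (c i) : (𝓞 K)ˣ) : 𝓞 K) : K)) =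
      ∑ i ∈ s, (c i : ℝ) * Real.log (((σ ^ i)⁻¹ • w) ((u : 𝓞 K) : K)) := by
  induction s using Finset.induction_on with
  | empty => simp
  | insert a s ha ih =>
    rw [Finset.prod_insert ha, Finset.sum_insert ha, ← ih]
    have h1 : (((unitsMap (σ ^ a) u ^ c a * ∏ i ∈ s, (unitsMap (σ ^ i) u) ^ (c i) : (𝓞 K)ˣ) :
        𝓞 K) : K) = (((unitsMap (σ ^ a) u : (𝓞 K)ˣ) : 𝓞 K) : K) ^ (c a) *
          (((∏ i ∈ s, (unitsMap (σ ^ i) u) ^ (c i) : (𝓞 K)ˣ) : 𝓞 K) : K) := by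
      have e1 := NumberField.Units.coe_mul (unitsMap (σ ^ a) u ^ c a)
        (∏ i ∈ s, (unitsMap (σ ^ i) u) ^ (c i))
      have e2 := NumberField.Units.coe_zpow (unitsMap (σ ^ a) u) (c a)
      exact e1.trans (congrArg (· * _) e2)
    rw [h1, map_mul, map_zpow₀, Real.log_mul, Real.log_zpow, place_unitsMap]
    · exact zpow_ne_zero _ (NumberField.Units.pos_at_place _ w).ne'
    · exact (NumberField.Units.pos_at_place _ w).ne'

include hp in
/-- **Minkowski relation (maximum principle).** Let `u₀` be a unit with `log |u₀|_w < 0` at all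
places `w ≠ w₁` (Mathlib's `dirichletUnitTheorem.exists_unit`) and `σ` a generator of the Galois
group. If a product `∏_{i < m} σ^i(u₀)^(c i)`, `m = (p-1)/2`, is a root of unity, then all
exponents `c i` are equal. -/
theorem const_of_prod_mem_torsion (h3 : 3 ≤ p) (σ : K ≃ₐ[ℚ] K)
    (hgen : ∀ τ : K ≃ₐ[ℚ] K, τ ∈ Subgroup.zpowers σ) (w₁ : InfinitePlace K) (u₀ : (𝓞 K)ˣ)
    (hu₀ : ∀ w : InfinitePlace K, w ≠ w₁ → Real.log (w ((u₀ : 𝓞 K) : K)) < 0) (c : ℕ → ℤ)
    (hc : ∏ i ∈ Finset.range ((p - 1) / 2), (unitsMap (σ ^ i) u₀) ^ (c i) ∈ torsion K) :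
    ∀ i < (p - 1) / 2, ∀ j < (p - 1) / 2, c i = c j := by
  have h2m := two_mul_half (p := p) h3
  set m := (p - 1) / 2 with hm
  have hm0 : 0 < m := by omega
  -- relation at every place
  have hrel : ∀ w : InfinitePlace K,
      ∑ i ∈ Finset.range m, (c i : ℝ) * Real.log (((σ ^ i)⁻¹ • w) ((u₀ : 𝓞 K) : K)) = 0 := by
    intro w
    rw [← log_place_prod_zpow, (NumberField.Units.mem_torsion K).mp hc w, Real.log_one]
  -- an index where `c` is maximal
  obtain ⟨i₀, hi₀, hmax⟩ :=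
    Finset.exists_max_image (Finset.range m) c ⟨0, Finset.mem_range.mpr hm0⟩
  have hi₀' : i₀ < m := Finset.mem_range.mp hi₀
  set w := σ ^ i₀ • w₁ with hw
  set b : ℕ → ℝ := fun i => Real.log (((σ ^ i)⁻¹ • w) ((u₀ : 𝓞 K) : K)) with hb
  have hbneg : ∀ i ∈ Finset.range m, i ≠ i₀ → b i < 0 := by
    intro i hi hne
    apply hu₀
    intro h
    have h' : σ ^ i₀ • w₁ = σ ^ i • w₁ := by
      calc σ ^ i₀ • w₁ = w := rfl
        _ = σ ^ i • ((σ ^ i)⁻¹ • w) := by rw [smul_smul, mul_inv_cancel, one_smul]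
        _ = σ ^ i • w₁ := by rw [h]
    have hinj := (orbit_bijective (p := p) h3 σ hgen w₁).1
    have := @hinj ⟨i₀, hi₀'⟩ ⟨i, Finset.mem_range.mp hi⟩ h'
    exact hne (congrArg Fin.val this).symm
  have hbsum : ∑ i ∈ Finset.range m, b i = 0 := by
    have := sum_places_eq (p := p) h3 σ⁻¹ (inv_generator σ hgen) w
      (fun w' => Real.log (w' ((u₀ : 𝓞 K) : K)))
    rw [sum_log_place (p := p) h3 u₀] at this
    rw [this]
    refine Finset.sum_congr rfl fun i _ => ?_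
    simp only [hb, inv_pow]
  have hkey : ∑ i ∈ Finset.range m, ((c i₀ : ℝ) - c i) * (- b i) = 0 := by
    have := hrel w
    calc ∑ i ∈ Finset.range m, ((c i₀ : ℝ) - c i) * (- b i)
        = ∑ i ∈ Finset.range m, (c i : ℝ) * b i - (c i₀ : ℝ) * ∑ i ∈ Finset.range m, b i := by
          rw [Finset.mul_sum, ← Finset.sum_sub_distrib]
          exact Finset.sum_congr rfl fun i _ => by ring
      _ = 0 := by rw [hbsum, this]; ring
  have hnonneg : ∀ i ∈ Finset.range m, 0 ≤ ((c i₀ : ℝ) - c i) * (- b i) := by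
    intro i hi
    by_cases hne : i = i₀
    · subst hne; simp
    · have h1 : (0 : ℝ) ≤ (c i₀ : ℝ) - c i := by
        have h := hmax i hi
        have : (c i : ℝ) ≤ c i₀ := by exact_mod_cast h
        linarith
      have h2 := hbneg i hi hne
      exact mul_nonneg h1 (by linarith)
  have hzero := (Finset.sum_eq_zero_iff_of_nonneg hnonneg).mp hkey
  have hall : ∀ i < m, c i = c i₀ := by
    intro i hi
    by_cases hne : i = i₀
    · rw [hne]
    · have h := hzero i (Finset.mem_range.mpr hi)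
      have h2 := hbneg i (Finset.mem_range.mpr hi) hne
      have h3 : (c i₀ : ℝ) - c i = 0 := by
        rcases mul_eq_zero.mp h with h | h
        · exact h
        · linarith
      have : (c i : ℝ) = c i₀ := by linarith
      exact_mod_cast this
  intro i hi j hj
  rw [hall i hi, hall j hj]

end Cyclotomic

end Fermat.Agent.S14.Units.LogAction
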